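/-
# RIBET row 38, WALL-p, package I6, leaf ETNODE (helper600)

`theorem etaleNode : H704.I6.EtaleNodeStatement` — a local-étale extension (trivial residue
extension) of a normal noetherian node ring is a normal noetherian node ring with the same
uniformisers.  Mathlib only.

Proof.  `S = R[Y]` is free over `R` on `1, Y, …` (power basis of the minimal polynomial, `R`
integrally closed), `R' = M⁻¹ S`.  Ideals of `R` extended to `R'` are controlled by coordinates
in `S` (`coordIdeal`).  `𝔪_{R'} = 𝔪_R R'` by Taylor expansion of `P` at a residue of `Y`.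
`R' ⧸ 𝔭₁ R'` is noetherian local with principal maximal ideal `(x)`, `x` not nilpotent: Krull's
intersection theorem.  Normality: Euler's formula for the trace dual of `R[Y]`
(`traceForm_dualSubmodule_adjoin`).
-/
import Fermat.Agent.Ribet.H704.I6Spec

set_option autoImplicit false
set_option linter.unusedSectionVars false
set_option linter.style.haveILetI false

namespace Fermat.Agent.Ribet.H600

open Polynomial IsLocalRing Fermat.Agent.Ribet.H704.I6

/-! ## Coordinates with respect to a basis -/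

section Coord

variable {R S : Type*} [CommRing R] [CommRing S] [Algebra R S] {ι : Type*} [Fintype ι]

/-- The ideal of the elements of `S` all of whose coordinates lie in `I`. -/
def coordIdeal (b : Module.Basis ι R S) (I : Ideal R) : Ideal S where
  carrier := {a | ∀ i, b.repr a i ∈ I}
  add_mem' := by
    intro a a' ha ha' i
    simp only [map_add, Finsupp.coe_add, Pi.add_apply]
    exact I.add_mem (ha i) (ha' i)
  zero_mem' := by intro i; simp
  smul_mem' := by
    intro t a ha i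
    have h : t • a = ∑ k, (b.repr a k) • (t * b k) := by
      conv_lhs => rw [← b.sum_repr a]
      rw [smul_eq_mul, Finset.mul_sum]
      refine Finset.sum_congr rfl fun k _ => ?_
      rw [mul_smul_comm]
    rw [h, map_sum, Finsupp.coe_finsetSum, Finset.sum_apply]
    refine I.sum_mem fun k _ => ?_
    rw [map_smul, Finsupp.smul_apply, smul_eq_mul]
    exact I.mul_mem_right _ (ha k)

theorem mem_coordIdeal {b : Module.Basis ι R S} {I : Ideal R} {a : S} :
    a ∈ coordIdeal b I ↔ ∀ i, b.repr a i ∈ I := Iff.rfl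

theorem algebraMap_mem_coordIdeal (b : Module.Basis ι R S) {I : Ideal R} {p : R} (hp : p ∈ I) :
    algebraMap R S p ∈ coordIdeal b I := by
  intro i
  rw [Algebra.algebraMap_eq_smul_one, map_smul, Finsupp.smul_apply, smul_eq_mul]
  exact I.mul_mem_right _ hp

theorem coordIdeal_inf (b : Module.Basis ι R S) (I J : Ideal R) :
    coordIdeal b I ⊓ coordIdeal b J = coordIdeal b (I ⊓ J) := by
  ext a
  simp only [Ideal.mem_inf, mem_coordIdeal]
  exact ⟨fun h i => ⟨h.1 i, h.2 i⟩, fun h => ⟨fun i => (h i).1, fun i => (h i).2⟩⟩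

theorem exists_mul_of_mem_coordIdeal_span (b : Module.Basis ι R S) (π : R) {a : S}
    (ha : a ∈ coordIdeal b (Ideal.span {π})) : ∃ c : S, a = algebraMap R S π * c := by
  choose r hr using fun i => Ideal.mem_span_singleton'.1 (ha i)
  refine ⟨∑ i, r i • b i, ?_⟩
  conv_lhs => rw [← b.sum_repr a]
  rw [Finset.mul_sum]
  refine Finset.sum_congr rfl fun i _ => ?_
  rw [← hr i, mul_comm (r i) π, mul_smul, Algebra.smul_def π]

theorem mem_coordIdeal_of_prime (b : Module.Basis ι R S) {I : Ideal R} (hI : I.IsPrime) {c : R}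
    (hc : c ∉ I) {s : S} (h : algebraMap R S c * s ∈ coordIdeal b I) : s ∈ coordIdeal b I := by
  intro i
  have := h i
  rw [← Algebra.smul_def, map_smul, Finsupp.smul_apply, smul_eq_mul] at this
  exact (hI.mem_or_mem this).resolve_left hc

theorem algebraMap_mem_map_of_mem_coordIdeal {T : Type*} [CommRing T] [Algebra R T] [Algebra S T]
    [IsScalarTower R S T] (b : Module.Basis ι R S) {I : Ideal R} {a : S}
    (ha : a ∈ coordIdeal b I) : algebraMap S T a ∈ I.map (algebraMap R T) := by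
  rw [← b.sum_repr a, map_sum]
  refine Ideal.sum_mem _ fun i _ => ?_
  rw [Algebra.smul_def, map_mul, ← IsScalarTower.algebraMap_apply]
  exact Ideal.mul_mem_right _ _ (Ideal.mem_map_of_mem _ (ha i))

end Coord

/-! ## The maximal ideal -/

section Max

variable {R R' : Type} [CommRing R] [IsLocalRing R] [CommRing R'] [IsLocalRing R'] [Algebra R R']

theorem map_maximalIdeal_le' [IsLocalHom (algebraMap R R')] :
    (maximalIdeal R).map (algebraMap R R') ≤ maximalIdeal R' := by
  rw [Ideal.map_le_iff_le_comap]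
  intro p hp
  rw [Ideal.mem_comap, mem_maximalIdeal, mem_nonunits_iff]
  intro hu
  exact (mem_nonunits_iff.1 ((mem_maximalIdeal _).1 hp)) (isUnit_of_map_unit (algebraMap R R') p hu)

theorem mem_maximalIdeal_of_algebraMap_mem {c : R}
    (h : algebraMap R R' c ∈ maximalIdeal R') : c ∈ maximalIdeal R := by
  rw [mem_maximalIdeal, mem_nonunits_iff]
  intro hu
  exact (mem_nonunits_iff.1 ((mem_maximalIdeal _).1 h)) (hu.map (algebraMap R R'))

/-- `Y - r ∈ 𝔪_R R'` when `Y` is a root of `P`, `P'(Y)` a unit and `Y ≡ r`. -/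
theorem sub_mem_map_maximalIdeal (Y : R') (P : R[X]) (hPY : aeval Y P = 0)
    (hP' : IsUnit (aeval Y (derivative P))) (r : R)
    (hr : Y - algebraMap R R' r ∈ maximalIdeal R') :
    Y - algebraMap R R' r ∈ (maximalIdeal R).map (algebraMap R R') := by
  set a := algebraMap R R' r with ha
  set t := Y - a with ht
  obtain ⟨k, hk⟩ := (P.map (algebraMap R R')).binomExpansion a t
  have e1 : (P.map (algebraMap R R')).eval (a + t) = 0 := by
    rw [ht, add_sub_cancel, eval_map, ← aeval_def, hPY]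
  have e2 : (P.map (algebraMap R R')).eval a = algebraMap R R' (P.eval r) := by
    rw [eval_map, ha, eval₂_at_apply]
  have e3 : (derivative (P.map (algebraMap R R'))).eval a
      = algebraMap R R' ((derivative P).eval r) := by
    rw [derivative_map, eval_map, ha, eval₂_at_apply]
  rw [e1, e2, e3] at hk
  -- `P'(r)` is a unit of `R'`
  obtain ⟨z, hz⟩ := ((derivative P).map (algebraMap R R')).evalSubFactor Y a
  rw [eval_map, ← aeval_def, eval_map, ha, eval₂_at_apply, ← ha, ← ht] at hz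
  have hu1 : IsUnit (algebraMap R R' ((derivative P).eval r)) := by
    by_contra hnu
    have h1 : algebraMap R R' ((derivative P).eval r) ∈ maximalIdeal R' :=
      (mem_maximalIdeal _).2 hnu
    have h2 : aeval Y (derivative P) ∈ maximalIdeal R' := by
      have : aeval Y (derivative P) = algebraMap R R' ((derivative P).eval r) + z * t := by
        rw [← hz]; ring
      rw [this]
      exact Ideal.add_mem _ h1 (Ideal.mul_mem_left _ _ hr)
    exact (mem_nonunits_iff.1 ((mem_maximalIdeal _).1 h2)) hP'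
  have hu2 : IsUnit (algebraMap R R' ((derivative P).eval r) + k * t) := by
    by_contra hnu
    have h1 : algebraMap R R' ((derivative P).eval r) + k * t ∈ maximalIdeal R' :=
      (mem_maximalIdeal _).2 hnu
    have h2 : algebraMap R R' ((derivative P).eval r) ∈ maximalIdeal R' := by
      have : algebraMap R R' ((derivative P).eval r)
          = (algebraMap R R' ((derivative P).eval r) + k * t) - k * t := by ring
      rw [this]
      exact Ideal.sub_mem _ h1 (Ideal.mul_mem_left _ _ hr)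
    exact (mem_nonunits_iff.1 ((mem_maximalIdeal _).1 h2)) hu1
  have hPr : algebraMap R R' (P.eval r) ∈ maximalIdeal R' := by
    have : algebraMap R R' (P.eval r)
        = -(t * (algebraMap R R' ((derivative P).eval r) + k * t)) := by
      linear_combination -hk
    rw [this]
    exact Ideal.neg_mem_iff _ |>.2 (Ideal.mul_mem_right _ _ hr)
  have hPr' : P.eval r ∈ maximalIdeal R := mem_maximalIdeal_of_algebraMap_mem hPr
  obtain ⟨w, hw⟩ := hu2
  have : t = -(algebraMap R R' (P.eval r)) * (↑w⁻¹ : R') := by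
    have h3 : t * (w : R') = -(algebraMap R R' (P.eval r)) := by
      rw [hw]; linear_combination -hk
    rw [← h3, mul_assoc, Units.mul_inv, mul_one]
  rw [this]
  exact Ideal.mul_mem_right _ _ (Ideal.neg_mem_iff _ |>.2 (Ideal.mem_map_of_mem _ hPr'))

/-- The extension is unramified at the closed point: `𝔪_{R'} = 𝔪_R R'`. -/
theorem maximalIdeal_le_map (Y : R') (P : R[X]) (hPY : aeval Y P = 0)
    (hP' : IsUnit (aeval Y (derivative P)))
    (hfrac : ∀ z : R', ∃ (a : R') (s : R'), a ∈ Algebra.adjoin R ({Y} : Set R') ∧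
      s ∈ Algebra.adjoin R ({Y} : Set R') ∧ IsUnit s ∧ z * s = a)
    (hres : ∀ z : R', ∃ r : R, z - algebraMap R R' r ∈ maximalIdeal R') :
    maximalIdeal R' ≤ (maximalIdeal R).map (algebraMap R R') := by
  obtain ⟨r, hr⟩ := hres Y
  have ht := sub_mem_map_maximalIdeal Y P hPY hP' r hr
  -- elements of `R[Y]`
  have key : ∀ a ∈ Algebra.adjoin R ({Y} : Set R'), a ∈ maximalIdeal R' →
      a ∈ (maximalIdeal R).map (algebraMap R R') := by
    intro a ha ham
    rw [Algebra.adjoin_singleton_eq_range_aeval] at ha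
    obtain ⟨A, rfl⟩ := ha
    obtain ⟨z, hz⟩ := (A.map (algebraMap R R')).evalSubFactor Y (algebraMap R R' r)
    rw [eval_map, ← aeval_def, eval_map, eval₂_at_apply] at hz
    have h1 : algebraMap R R' (A.eval r) ∈ maximalIdeal R' := by
      have : algebraMap R R' (A.eval r) = aeval Y A - z * (Y - algebraMap R R' r) := by
        rw [← hz]; ring
      rw [this]
      exact Ideal.sub_mem _ ham (Ideal.mul_mem_left _ _ hr)
    have h2 : aeval Y A = algebraMap R R' (A.eval r) + z * (Y - algebraMap R R' r) := by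
      rw [← hz]; ring
    change aeval Y A ∈ _
    rw [h2]
    exact Ideal.add_mem _ (Ideal.mem_map_of_mem _ (mem_maximalIdeal_of_algebraMap_mem h1))
      (Ideal.mul_mem_left _ _ ht)
  intro z hz
  obtain ⟨a, s, ha, -, hs, hzs⟩ := hfrac z
  obtain ⟨u, rfl⟩ := hs
  have ham : a ∈ maximalIdeal R' := by rw [← hzs]; exact Ideal.mul_mem_right _ _ hz
  have : z = a * (↑u⁻¹ : R') := by rw [← hzs, mul_assoc, Units.mul_inv, mul_one]
  rw [this]
  exact Ideal.mul_mem_right _ _ (key a ha ham)

end Max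

/-! ## `R[Y]` and its coordinates -/

section Adjoin

variable {R R' : Type} [CommRing R] [IsDomain R] [IsIntegrallyClosed R] [IsLocalRing R]
  [CommRing R'] [IsDomain R'] [IsLocalRing R'] [Algebra R R'] [IsLocalHom (algebraMap R R')]
  [Module.IsTorsionFree R R']

/-- The power basis `1, Y, …, Y^(d-1)` of `R[Y]`. -/
noncomputable def pbY (Y : R') (hY : IsIntegral R Y) :
    PowerBasis R (Algebra.adjoin R ({Y} : Set R')) :=
  Algebra.adjoin.powerBasis' hY

/-- Elements of an extended ideal have, up to a unit denominator, coordinates in the ideal. -/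
theorem exists_unit_mul_mem_coordIdeal (Y : R') (hY : IsIntegral R Y)
    (hfrac : ∀ z : R', ∃ (a : R') (s : R'), a ∈ Algebra.adjoin R ({Y} : Set R') ∧
      s ∈ Algebra.adjoin R ({Y} : Set R') ∧ IsUnit s ∧ z * s = a)
    (I : Ideal R) {z : R'} (hz : z ∈ I.map (algebraMap R R')) :
    ∃ s a : Algebra.adjoin R ({Y} : Set R'), IsUnit (s : R') ∧
      a ∈ coordIdeal (pbY Y hY).basis I ∧ z * (s : R') = (a : R') := by
  unfold Ideal.map at hz
  induction hz using Submodule.span_induction with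
  | mem z hz =>
    obtain ⟨p, hp, rfl⟩ := hz
    exact ⟨1, algebraMap R _ p, by simp, algebraMap_mem_coordIdeal _ hp, by simp⟩
  | zero => exact ⟨1, 0, by simp, Ideal.zero_mem _, by simp⟩
  | add z₁ z₂ _ _ h₁ h₂ =>
    obtain ⟨s₁, a₁, hs₁, ha₁, e₁⟩ := h₁
    obtain ⟨s₂, a₂, hs₂, ha₂, e₂⟩ := h₂
    refine ⟨s₁ * s₂, a₁ * s₂ + a₂ * s₁, ?_, ?_, ?_⟩
    · simpa using hs₁.mul hs₂
    · exact Ideal.add_mem _ (Ideal.mul_mem_right _ _ ha₁) (Ideal.mul_mem_right _ _ ha₂)
    · push_cast
      rw [← e₁, ← e₂]; ring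
  | smul w z _ h =>
    obtain ⟨s, a, hs, ha, e⟩ := h
    obtain ⟨c, t, hc, ht, htu, hwt⟩ := hfrac w
    refine ⟨⟨t, ht⟩ * s, ⟨c, hc⟩ * a, ?_, Ideal.mul_mem_left _ _ ha, ?_⟩
    · simpa using htu.mul hs
    · push_cast
      rw [← e, ← hwt, smul_eq_mul]; ring

/-- Extended prime ideals contract to themselves. -/
theorem mem_of_algebraMap_mem_map (Y : R') (hY : IsIntegral R Y)
    (hfrac : ∀ z : R', ∃ (a : R') (s : R'), a ∈ Algebra.adjoin R ({Y} : Set R') ∧
      s ∈ Algebra.adjoin R ({Y} : Set R') ∧ IsUnit s ∧ z * s = a)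
    {I : Ideal R} (hI : I.IsPrime) {c : R} (hc : algebraMap R R' c ∈ I.map (algebraMap R R')) :
    c ∈ I := by
  by_contra hcI
  obtain ⟨s, a, hs, ha, e⟩ := exists_unit_mul_mem_coordIdeal Y hY hfrac I hc
  have e' : algebraMap R (Algebra.adjoin R ({Y} : Set R')) c * s = a := by
    apply Subtype.ext
    push_cast
    exact e
  rw [← e'] at ha
  have hsI := mem_coordIdeal_of_prime _ hI hcI ha
  have h1 : (s : R') ∈ I.map (algebraMap R R') :=
    algebraMap_mem_map_of_mem_coordIdeal (T := R') _ hsI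
  have h2 : (s : R') ∈ maximalIdeal R' :=
    map_maximalIdeal_le' (Ideal.map_mono (le_maximalIdeal hI.ne_top) h1)
  exact (mem_nonunits_iff.1 ((mem_maximalIdeal _).1 h2)) hs

/-- Extension of ideals commutes with the intersection `𝔭₁ ⊓ 𝔭₂ = (π)`. -/
theorem map_inf_map_le_span (Y : R') (hY : IsIntegral R Y)
    (hfrac : ∀ z : R', ∃ (a : R') (s : R'), a ∈ Algebra.adjoin R ({Y} : Set R') ∧
      s ∈ Algebra.adjoin R ({Y} : Set R') ∧ IsUnit s ∧ z * s = a)
    {𝔭₁ 𝔭₂ : Ideal R} {π : R} (h : 𝔭₁ ⊓ 𝔭₂ = Ideal.span {π}) :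
    𝔭₁.map (algebraMap R R') ⊓ 𝔭₂.map (algebraMap R R') ≤ Ideal.span {algebraMap R R' π} := by
  intro z hz
  obtain ⟨s₁, a₁, hs₁, ha₁, e₁⟩ := exists_unit_mul_mem_coordIdeal Y hY hfrac 𝔭₁ hz.1
  obtain ⟨s₂, a₂, hs₂, ha₂, e₂⟩ := exists_unit_mul_mem_coordIdeal Y hY hfrac 𝔭₂ hz.2
  have e : a₁ * s₂ = a₂ * s₁ := by
    apply Subtype.ext
    push_cast
    rw [← e₁, ← e₂]; ring
  have hmem : a₁ * s₂ ∈ coordIdeal (pbY Y hY).basis (Ideal.span {π}) := by
    rw [← h, ← coordIdeal_inf]
    exact ⟨Ideal.mul_mem_right _ _ ha₁, e ▸ Ideal.mul_mem_right _ _ ha₂⟩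
  obtain ⟨c, hc⟩ := exists_mul_of_mem_coordIdeal_span _ π hmem
  obtain ⟨u₁, hu₁⟩ := hs₁
  obtain ⟨u₂, hu₂⟩ := hs₂
  have hc' : z * (u₁ : R') * (u₂ : R') = algebraMap R R' π * (c : R') := by
    have := congrArg (Subtype.val) hc
    push_cast at this
    rw [hu₁, hu₂, e₁]
    exact this
  have : z = algebraMap R R' π * ((c : R') * (↑u₁⁻¹ : R') * (↑u₂⁻¹ : R')) := by
    calc z = z * (u₁ : R') * (u₂ : R') * ((↑u₁⁻¹ : R') * (↑u₂⁻¹ : R')) := by
          have h1 : (u₁ : R') * (↑u₁⁻¹ : R') = 1 := Units.mul_inv u₁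
          have h2 : (u₂ : R') * (↑u₂⁻¹ : R') = 1 := Units.mul_inv u₂
          linear_combination (-z * ((u₂ : R') * (↑u₂⁻¹ : R'))) * h1 - z * h2
      _ = _ := by rw [hc']; ring
  rw [this]
  exact Ideal.mul_mem_right _ _ (Ideal.mem_span_singleton_self _)

end Adjoin

/-! ## A branch: noetherian local with principal maximal ideal -/

section Branch

/-- In a node ring, `𝔪 = 𝔭 + (x)` on each branch. -/
theorem maximalIdeal_le_sup_span {R : Type*} [CommRing R] [IsLocalRing R] {𝔭 : Ideal R} {x : R}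
    (h𝔭 : 𝔭 ≠ ⊤) (unif : ∀ a : R, a ∉ 𝔭 → ∃ s : ℕ, OrdOn 𝔭 x a s) :
    maximalIdeal R ≤ 𝔭 ⊔ Ideal.span {x} := by
  intro a ha
  by_cases hap : a ∈ 𝔭
  · exact Ideal.mem_sup_left hap
  obtain ⟨s, u, hu⟩ := unif a hap
  obtain ⟨w, hw⟩ := Ideal.Quotient.mk_surjective (I := 𝔭) (↑u⁻¹ : R ⧸ 𝔭)
  have hu' : Ideal.Quotient.mk 𝔭 a = (Ideal.Quotient.mk 𝔭 x) ^ s * (↑u⁻¹ : R ⧸ 𝔭) := by
    rw [← hu, mul_assoc, Units.mul_inv, mul_one]
  rcases Nat.eq_zero_or_pos s with hs | hs
  · exfalso
    subst hs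
    rw [pow_zero, one_mul, ← hw] at hu'
    obtain ⟨v, hv⟩ := Ideal.Quotient.mk_surjective (I := 𝔭) (↑u : R ⧸ 𝔭)
    have h1 : Ideal.Quotient.mk 𝔭 (a * v - 1) = 0 := by
      rw [map_sub, map_mul, map_one, hv, hu', hw, Units.inv_mul, sub_self]
    have h2 : a * v - 1 ∈ maximalIdeal R :=
      le_maximalIdeal h𝔭 (Ideal.Quotient.eq_zero_iff_mem.1 h1)
    have h3 : (1 : R) ∈ maximalIdeal R := by
      have : (1 : R) = a * v - (a * v - 1) := by ring
      rw [this]
      exact Ideal.sub_mem _ (Ideal.mul_mem_right _ _ ha) h2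
    exact (Ideal.ne_top_iff_one _).1 (maximalIdeal.isMaximal R).ne_top h3
  · obtain ⟨n, rfl⟩ : ∃ n, s = n + 1 := ⟨s - 1, by omega⟩
    have h1 : Ideal.Quotient.mk 𝔭 (a - x * (x ^ n * w)) = 0 := by
      rw [map_sub, map_mul, map_mul, map_pow, hw, hu']; ring
    have h2 : a - x * (x ^ n * w) ∈ 𝔭 := Ideal.Quotient.eq_zero_iff_mem.1 h1
    have : a = (a - x * (x ^ n * w)) + x * (x ^ n * w) := by ring
    rw [this]
    exact Ideal.add_mem _ (Ideal.mem_sup_left h2)
      (Ideal.mem_sup_right (Ideal.mul_mem_right _ _ (Ideal.mem_span_singleton_self x)))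

/-- A noetherian local ring `A` and a proper ideal `𝔮` such that `𝔪 ≤ 𝔮 + (x)` and no power of
`x` lies in `𝔮`: then `𝔮` is prime and `A ⧸ 𝔮` is a discrete valuation ring with uniformiser
`x`. -/
theorem branch_of_principal {A : Type*} [CommRing A] [IsLocalRing A] [IsNoetherianRing A]
    {𝔮 : Ideal A} {x : A} (h𝔮 : 𝔮 ≤ maximalIdeal A) (hxm : x ∈ maximalIdeal A)
    (hm : maximalIdeal A ≤ 𝔮 ⊔ Ideal.span {x}) (hpow : ∀ n : ℕ, x ^ n ∉ 𝔮) :
    𝔮.IsPrime ∧ (∀ a : A, a ∉ 𝔮 → ∃ s : ℕ, OrdOn 𝔮 x a s) ∧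
      ¬ IsUnit (Ideal.Quotient.mk 𝔮 x) := by
  have h𝔮top : 𝔮 ≠ ⊤ := fun h => by
    have := h ▸ h𝔮
    exact (maximalIdeal.isMaximal A).ne_top (top_le_iff.1 this)
  have : Nontrivial (A ⧸ 𝔮) := Ideal.Quotient.nontrivial_iff.2 h𝔮top
  have : IsLocalRing (A ⧸ 𝔮) :=
    IsLocalRing.of_surjective' (Ideal.Quotient.mk 𝔮) Ideal.Quotient.mk_surjective
  set X : A ⧸ 𝔮 := Ideal.Quotient.mk 𝔮 x with hX
  -- non-units of the quotient are multiples of `X`
  have hnonunit : ∀ c : A ⧸ 𝔮, ¬ IsUnit c → c ∈ Ideal.span {X} := by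
    intro c hc
    obtain ⟨z, rfl⟩ := Ideal.Quotient.mk_surjective c
    have hz : z ∈ maximalIdeal A := by
      rw [mem_maximalIdeal, mem_nonunits_iff]
      exact fun hu => hc (hu.map _)
    obtain ⟨p, hp, q, hq, rfl⟩ := Submodule.mem_sup.1 (hm hz)
    obtain ⟨w, rfl⟩ := Ideal.mem_span_singleton'.1 hq
    rw [map_add, Ideal.Quotient.eq_zero_iff_mem.2 hp, zero_add, map_mul]
    exact Ideal.mul_mem_left _ _ (Ideal.mem_span_singleton_self _)
  have hXnu : ¬ IsUnit X := by
    intro hu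
    obtain ⟨u, hu⟩ := hu
    obtain ⟨w, hw⟩ := Ideal.Quotient.mk_surjective (I := 𝔮) (↑u⁻¹ : A ⧸ 𝔮)
    have h1 : Ideal.Quotient.mk 𝔮 (x * w - 1) = 0 := by
      rw [map_sub, map_mul, map_one, hw, ← hX, ← hu, Units.mul_inv, sub_self]
    have h2 : x * w - 1 ∈ maximalIdeal A := h𝔮 (Ideal.Quotient.eq_zero_iff_mem.1 h1)
    have h3 : (1 : A) ∈ maximalIdeal A := by
      have : (1 : A) = x * w - (x * w - 1) := by ring
      rw [this]
      exact Ideal.sub_mem _ (Ideal.mul_mem_right _ _ hxm) h2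
    exact (Ideal.ne_top_iff_one _).1 (maximalIdeal.isMaximal A).ne_top h3
  have hJtop : Ideal.span {X} ≠ ⊤ := by
    rw [Ne, Ideal.span_singleton_eq_top]
    exact hXnu
  have hkrull := Ideal.iInf_pow_eq_bot_of_isLocalRing (Ideal.span {X}) hJtop
  have hunif : ∀ a : A, a ∉ 𝔮 → ∃ s : ℕ, OrdOn 𝔮 x a s := by
    intro a ha
    have hb : Ideal.Quotient.mk 𝔮 a ≠ 0 := fun h => ha (Ideal.Quotient.eq_zero_iff_mem.1 h)
    have hex : ∃ n : ℕ, Ideal.Quotient.mk 𝔮 a ∉ Ideal.span {X} ^ n := by
      by_contra hcon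
      simp only [not_exists, not_not] at hcon
      have : Ideal.Quotient.mk 𝔮 a ∈ ⨅ i, Ideal.span {X} ^ i := (Ideal.mem_iInf).2 hcon
      rw [hkrull] at this
      exact hb ((Ideal.mem_bot).1 this)
    classical
    have hn := Nat.find_spec hex
    have hn0 : Nat.find hex ≠ 0 := by
      intro h0
      rw [h0, pow_zero, Ideal.one_eq_top] at hn
      exact hn trivial
    obtain ⟨s, hs⟩ : ∃ s, Nat.find hex = s + 1 := ⟨Nat.find hex - 1, by omega⟩
    have hmem : Ideal.Quotient.mk 𝔮 a ∈ Ideal.span {X} ^ s := by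
      by_contra hcon
      exact Nat.find_min hex (by omega : s < Nat.find hex) hcon
    rw [Ideal.span_singleton_pow, Ideal.mem_span_singleton'] at hmem
    obtain ⟨c, hc⟩ := hmem
    have hcu : IsUnit c := by
      by_contra hcnu
      have h1 := hnonunit c hcnu
      obtain ⟨d, hd⟩ := Ideal.mem_span_singleton'.1 h1
      apply hn
      rw [hs, Ideal.span_singleton_pow, Ideal.mem_span_singleton']
      exact ⟨d, by rw [← hc, ← hd, pow_succ]; ring⟩
    obtain ⟨u, rfl⟩ := hcu
    refine ⟨s, u⁻¹, ?_⟩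
    rw [← hc]
    calc (u : A ⧸ 𝔮) * X ^ s * (↑u⁻¹ : A ⧸ 𝔮)
        = X ^ s * ((u : A ⧸ 𝔮) * (↑u⁻¹ : A ⧸ 𝔮)) := by ring
      _ = X ^ s := by rw [Units.mul_inv, mul_one]
  refine ⟨?_, hunif, hXnu⟩
  rw [Ideal.isPrime_iff]
  refine ⟨h𝔮top, ?_⟩
  intro a b hab
  by_contra hcon
  rw [not_or] at hcon
  obtain ⟨s, u, hu⟩ := hunif a hcon.1
  obtain ⟨t, v, hv⟩ := hunif b hcon.2
  have h1 : Ideal.Quotient.mk 𝔮 (x ^ (s + t)) = 0 := by
    rw [map_pow, pow_add, ← hu, ← hv]
    have : Ideal.Quotient.mk 𝔮 a * Ideal.Quotient.mk 𝔮 b = 0 := by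
      rw [← map_mul]; exact Ideal.Quotient.eq_zero_iff_mem.2 hab
    calc Ideal.Quotient.mk 𝔮 a * ↑u * (Ideal.Quotient.mk 𝔮 b * ↑v)
        = (Ideal.Quotient.mk 𝔮 a * Ideal.Quotient.mk 𝔮 b) * (↑u * ↑v) := by ring
      _ = 0 := by rw [this, zero_mul]
  exact hpow _ (Ideal.Quotient.eq_zero_iff_mem.1 h1)

end Branch

/-! ## `R'` is a localisation of `R[Y]`; noetherianity -/

section Loc

variable {R R' : Type} [CommRing R] [CommRing R'] [Algebra R R']

/-- The elements of `R[Y]` which are units of `R'`. -/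
def unitSub (R : Type) {R' : Type} [CommRing R] [CommRing R'] [Algebra R R'] (Y : R') :
    Submonoid (Algebra.adjoin R ({Y} : Set R')) :=
  (IsUnit.submonoid R').comap (algebraMap (Algebra.adjoin R ({Y} : Set R')) R')

theorem mem_unitSub {Y : R'} {s : Algebra.adjoin R ({Y} : Set R')} :
    s ∈ unitSub R Y ↔ IsUnit (s : R') := Iff.rfl

theorem isLocalization_unitSub (Y : R')
    (hfrac : ∀ z : R', ∃ (a : R') (s : R'), a ∈ Algebra.adjoin R ({Y} : Set R') ∧
      s ∈ Algebra.adjoin R ({Y} : Set R') ∧ IsUnit s ∧ z * s = a) :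
    IsLocalization (unitSub R Y) R' := by
  rw [isLocalization_iff]
  refine ⟨fun y => y.2, fun z => ?_, fun {x y} h => ⟨1, ?_⟩⟩
  · obtain ⟨a, s, ha, hs, hsu, e⟩ := hfrac z
    exact ⟨(⟨a, ha⟩, ⟨⟨s, hs⟩, hsu⟩), e⟩
  · have : x = y := Subtype.ext h
    rw [this]

theorem isNoetherianRing_of_frac [IsNoetherianRing R] (Y : R') (hY : IsIntegral R Y)
    (hfrac : ∀ z : R', ∃ (a : R') (s : R'), a ∈ Algebra.adjoin R ({Y} : Set R') ∧
      s ∈ Algebra.adjoin R ({Y} : Set R') ∧ IsUnit s ∧ z * s = a) :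
    IsNoetherianRing R' := by
  have hfin : Module.Finite R (Algebra.adjoin R ({Y} : Set R')) :=
    Module.Finite.iff_fg.2 hY.fg_adjoin_singleton
  have h1 : IsNoetherian R (Algebra.adjoin R ({Y} : Set R')) := inferInstance
  have h2 : IsNoetherianRing (Algebra.adjoin R ({Y} : Set R')) := isNoetherian_of_tower R h1
  have := isLocalization_unitSub Y hfrac
  exact IsLocalization.isNoetherianRing (unitSub R Y) R' h2

end Loc

/-! ## Normality -/

section Normal

variable {R R' : Type} [CommRing R] [IsDomain R] [IsIntegrallyClosed R]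
  [CommRing R'] [IsDomain R'] [Algebra R R'] [Module.IsTorsionFree R R']

open IntermediateField in
/-- The fraction field of `R'` is generated by `Y` over the fraction field of `R`. -/
theorem adjoin_eq_top_of_frac (Y : R') (_hY : IsIntegral R Y)
    (hfrac : ∀ z : R', ∃ (a : R') (s : R'), a ∈ Algebra.adjoin R ({Y} : Set R') ∧
      s ∈ Algebra.adjoin R ({Y} : Set R') ∧ IsUnit s ∧ z * s = a) :
    letI : Algebra (FractionRing R) (FractionRing R') :=
      FractionRing.liftAlgebra R (FractionRing R')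
    (FractionRing R)⟮algebraMap R' (FractionRing R') Y⟯ = ⊤ := by
  letI : Algebra (FractionRing R) (FractionRing R') :=
    FractionRing.liftAlgebra R (FractionRing R')
  haveI : IsScalarTower R (FractionRing R) (FractionRing R') :=
    FractionRing.isScalarTower_liftAlgebra R (FractionRing R')
  set K := FractionRing R
  set L := FractionRing R'
  set y : L := algebraMap R' L Y with hy
  have hinj : Function.Injective (algebraMap R' L) := IsFractionRing.injective R' L
  have h1 : ∀ c ∈ Algebra.adjoin R ({Y} : Set R'), algebraMap R' L c ∈ K⟮y⟯ := by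
    intro c hc
    rw [Algebra.adjoin_singleton_eq_range_aeval] at hc
    obtain ⟨A, rfl⟩ := hc
    have e : algebraMap R' L (aeval Y A) = aeval y (A.map (algebraMap R K)) := by
      rw [aeval_map_algebraMap, hy, aeval_algebraMap_apply]
    change algebraMap R' L (aeval Y A) ∈ _
    rw [e]
    exact algebra_adjoin_le_adjoin K {y} (aeval_mem_adjoin_singleton K y)
  have h2 : ∀ c : R', algebraMap R' L c ∈ K⟮y⟯ := by
    intro c
    obtain ⟨a, s, ha, hs, hsu, e⟩ := hfrac c
    have hs0 : algebraMap R' L s ≠ 0 := by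
      intro h0
      have : s = 0 := hinj (by rw [h0, map_zero])
      rw [this] at hsu
      exact not_isUnit_zero hsu
    have : algebraMap R' L c = algebraMap R' L a / algebraMap R' L s := by
      rw [eq_div_iff hs0, ← map_mul, e]
    rw [this]
    exact div_mem (h1 a ha) (h1 s hs)
  rw [eq_top_iff]
  intro z _
  obtain ⟨a, b, -, rfl⟩ := IsFractionRing.div_surjective R' z
  exact div_mem (h2 a) (h2 b)

open IntermediateField in
/-- A localisation `R'` of `R[Y]`, `R` integrally closed, at which the derivative of a monic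
equation of `Y` is a unit, is integrally closed. -/
theorem isIntegrallyClosed_of_etale (Y : R') (P : R[X]) (hP : P.Monic) (hPY : aeval Y P = 0)
    (hP' : IsUnit (aeval Y (derivative P)))
    (hfrac : ∀ z : R', ∃ (a : R') (s : R'), a ∈ Algebra.adjoin R ({Y} : Set R') ∧
      s ∈ Algebra.adjoin R ({Y} : Set R') ∧ IsUnit s ∧ z * s = a) :
    IsIntegrallyClosed R' := by
  classical
  have hY : IsIntegral R Y := ⟨P, hP, by rwa [← aeval_def]⟩
  obtain ⟨Q, hQ⟩ := minpoly.isIntegrallyClosed_dvd hY hPY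
  have hmu : IsUnit (aeval Y (derivative (minpoly R Y))) := by
    have : aeval Y (derivative P) = aeval Y (derivative (minpoly R Y)) * aeval Y Q := by
      rw [hQ, derivative_mul, map_add, map_mul, map_mul, minpoly.aeval, zero_mul, add_zero]
    rw [this] at hP'
    exact isUnit_of_mul_isUnit_left hP'
  letI : Algebra (FractionRing R) (FractionRing R') :=
    FractionRing.liftAlgebra R (FractionRing R')
  haveI : IsScalarTower R (FractionRing R) (FractionRing R') :=
    FractionRing.isScalarTower_liftAlgebra R (FractionRing R')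
  have hKtop := adjoin_eq_top_of_frac Y hY hfrac
  set K := FractionRing R
  set L := FractionRing R'
  set y : L := algebraMap R' L Y with hy
  have hinj : Function.Injective (algebraMap R' L) := IsFractionRing.injective R' L
  have hyR : IsIntegral R y := hY.map (IsScalarTower.toAlgHom R R' L)
  have hyK : IsIntegral K y := hyR.tower_top
  have htop : Algebra.adjoin K {y} = ⊤ := by
    rw [← IntermediateField.adjoin_simple_toSubalgebra_of_isAlgebraic hyK.isAlgebraic, hKtop,
      IntermediateField.top_toSubalgebra]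
  haveI : FiniteDimensional K L := by
    have h := hyK.fg_adjoin_singleton
    rw [htop, Algebra.top_toSubmodule] at h
    exact ⟨h⟩
  -- the derivative of the minimal polynomial
  have hder : aeval y (derivative (minpoly K y))
      = algebraMap R' L (aeval Y (derivative (minpoly R Y))) := by
    rw [minpoly.isIntegrallyClosed_eq_field_fractions' K hyR, derivative_map,
      aeval_map_algebraMap, hy, minpoly.algebraMap_eq hinj, aeval_algebraMap_apply]
  have hder0 : aeval y (derivative (minpoly K y)) ≠ 0 := by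
    rw [hder]
    intro h0
    have : aeval Y (derivative (minpoly R Y)) = 0 := hinj (by rw [h0, map_zero])
    rw [this] at hmu
    exact not_isUnit_zero hmu
  have hsep : IsSeparable K y := by
    rw [IsSeparable, separable_iff_derivative_ne_zero (minpoly.irreducible hyK)]
    intro h0
    rw [h0, map_zero] at hder0
    exact hder0 rfl
  haveI : Algebra.IsSeparable K L := by
    haveI : Algebra.IsSeparable K K⟮y⟯ :=
      (IntermediateField.isSeparable_adjoin_simple_iff_isSeparable K L).2 hsep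
    refine ⟨fun z => ?_⟩
    exact IntermediateField.isSeparable_of_mem_isSeparable K L (L := K⟮y⟯)
      (by rw [hKtop]; trivial)
  -- the main argument
  rw [isIntegrallyClosed_iff L]
  intro z hz
  haveI := isLocalization_unitSub Y hfrac
  haveI : Algebra.IsIntegral R (Algebra.adjoin R ({Y} : Set R')) :=
    Algebra.IsIntegral.adjoin (by simpa using hY)
  obtain ⟨m, hm⟩ := IsIntegral.exists_multiple_integral_of_isLocalization (unitSub R Y) z hz
  have hmR : IsIntegral R (m • z) := isIntegral_trans (R := R) _ hm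
  have hmz : m • z = algebraMap R' L (m : R') * z := by
    rw [Submonoid.smul_def, Algebra.smul_def]
    rfl
  rw [hmz] at hmR
  have hdual : algebraMap R' L (m : R') * z ∈
      (Algebra.traceForm K L).dualSubmodule (Subalgebra.toSubmodule (Algebra.adjoin R {y})) := by
    rw [LinearMap.BilinForm.mem_dualSubmodule]
    intro a ha
    rw [Algebra.traceForm_apply, Submodule.mem_one]
    have haR : IsIntegral R a := by
      have : Algebra.IsIntegral R (Algebra.adjoin R ({y} : Set L)) :=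
        Algebra.IsIntegral.adjoin (by simpa using hyR)
      exact (Algebra.IsIntegral.isIntegral (R := R) (⟨a, ha⟩ : Algebra.adjoin R ({y} : Set L))).map
        (Algebra.adjoin R ({y} : Set L)).val
    exact IsIntegrallyClosed.isIntegral_iff.1 (Algebra.isIntegral_trace (hmR.mul haR))
  rw [traceForm_dualSubmodule_adjoin R K htop hyR,
    Submodule.mem_smul_pointwise_iff_exists] at hdual
  obtain ⟨b, hb, e⟩ := hdual
  have hb' : b ∈ Subalgebra.map (IsScalarTower.toAlgHom R R' L) (Algebra.adjoin R {Y}) := by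
    rw [AlgHom.map_adjoin_singleton]
    exact hb
  obtain ⟨b', -, rfl⟩ := hb'
  obtain ⟨d, hd⟩ := hmu
  obtain ⟨u, hu⟩ : IsUnit (m : R') := m.2
  refine ⟨b' * (↑d⁻¹ : R') * (↑u⁻¹ : R'), ?_⟩
  have hd0 : algebraMap R' L (d : R') ≠ 0 := by rw [hd, ← hder]; exact hder0
  have hu0 : algebraMap R' L (u : R') ≠ 0 := by
    intro h0
    have : (u : R') = 0 := hinj (by rw [h0, map_zero])
    exact u.ne_zero this
  have e2 : (aeval y (derivative (minpoly K y)))⁻¹ * algebraMap R' L b'
      = algebraMap R' L (m : R') * z := e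
  have e' : algebraMap R' L b' = algebraMap R' L (d : R') * (algebraMap R' L (u : R') * z) := by
    rw [hd, ← hder, hu, ← e2, mul_inv_cancel_left₀ hder0]
  have h1 : algebraMap R' L (↑d⁻¹ : R') * algebraMap R' L (d : R') = 1 := by
    rw [← map_mul, Units.inv_mul, map_one]
  have h2 : algebraMap R' L (↑u⁻¹ : R') * algebraMap R' L (u : R') = 1 := by
    rw [← map_mul, Units.inv_mul, map_one]
  rw [map_mul, map_mul, e']
  linear_combination (algebraMap R' L (↑u⁻¹ : R') * algebraMap R' L (u : R') * z) * h1 + z * h2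

end Normal

/-! ## The leaf -/

/-- **ETNODE.**  A local-étale extension of Artin–Schreier type of a node ring is a node ring. -/
theorem etaleNode : EtaleNodeStatement := by
  intro R R' _ _ _ _ _ _ _ _ _ _ 𝔭₁ 𝔭₂ π x y hnode hinj Y P hP hPY hP' hfrac hres
  haveI : Module.IsTorsionFree R R' := Module.isTorsionFree_iff_algebraMap_injective.2 hinj
  have hY : IsIntegral R Y := ⟨P, hP, by rwa [← aeval_def]⟩
  have hN : IsNoetherianRing R' := isNoetherianRing_of_frac Y hY hfrac
  have hIC : IsIntegrallyClosed R' := isIntegrallyClosed_of_etale Y P hP hPY hP' hfrac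
  have hmax : maximalIdeal R' ≤ (maximalIdeal R).map (algebraMap R R') :=
    maximalIdeal_le_map Y P hPY hP' hfrac hres
  refine ⟨hIC, hN, ?_⟩
  have h𝔭₁le : 𝔭₁ ≤ maximalIdeal R := hnode.sup_eq ▸ le_sup_left
  have h𝔭₂le : 𝔭₂ ≤ maximalIdeal R := hnode.sup_eq ▸ le_sup_right
  have hm₁ := maximalIdeal_le_sup_span hnode.prime₁.ne_top hnode.unif₁
  have hm₂ := maximalIdeal_le_sup_span hnode.prime₂.ne_top hnode.unif₂
  have key : ∀ (𝔭 : Ideal R) (x : R), 𝔭.IsPrime → x ∉ 𝔭 → x ∈ maximalIdeal R →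
      maximalIdeal R ≤ 𝔭 ⊔ Ideal.span {x} →
      (𝔭.map (algebraMap R R')).IsPrime ∧
        (∀ a : R', a ∉ 𝔭.map (algebraMap R R') →
          ∃ s : ℕ, OrdOn (𝔭.map (algebraMap R R')) (algebraMap R R' x) a s) ∧
        ¬ IsUnit (Ideal.Quotient.mk (𝔭.map (algebraMap R R')) (algebraMap R R' x)) ∧
        algebraMap R R' x ∉ 𝔭.map (algebraMap R R') := by
    intro 𝔭 x h𝔭 hx hxm hm
    have h1 : 𝔭.map (algebraMap R R') ≤ maximalIdeal R' :=
      (Ideal.map_mono (le_maximalIdeal h𝔭.ne_top)).trans map_maximalIdeal_le'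
    have h2 : algebraMap R R' x ∈ maximalIdeal R' :=
      map_maximalIdeal_le' (Ideal.mem_map_of_mem _ hxm)
    have h3 : maximalIdeal R' ≤ 𝔭.map (algebraMap R R') ⊔ Ideal.span {algebraMap R R' x} := by
      refine hmax.trans ((Ideal.map_mono hm).trans ?_)
      rw [Ideal.map_sup, Ideal.map_span, Set.image_singleton]
    have h4 : ∀ n : ℕ, (algebraMap R R' x) ^ n ∉ 𝔭.map (algebraMap R R') := by
      intro n hn
      rw [← map_pow] at hn
      exact hx (h𝔭.mem_of_pow_mem n (mem_of_algebraMap_mem_map Y hY hfrac h𝔭 hn))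
    obtain ⟨hp, hu, hnu⟩ := branch_of_principal h1 h2 h3 h4
    exact ⟨hp, hu, hnu, by simpa using h4 1⟩
  obtain ⟨hp₁, hu₁, hnu₁, hx₁⟩ := key 𝔭₁ x hnode.prime₁ hnode.hx₁ (h𝔭₂le hnode.hx) hm₁
  obtain ⟨hp₂, hu₂, hnu₂, hy₂⟩ := key 𝔭₂ y hnode.prime₂ hnode.hy₂ (h𝔭₁le hnode.hy) hm₂
  have hπ : π ∈ 𝔭₁ ⊓ 𝔭₂ := by rw [hnode.inf_eq]; exact Ideal.mem_span_singleton_self π
  exact
    { prime₁ := hp₁
      prime₂ := hp₂
      inf_eq := le_antisymm (map_inf_map_le_span Y hY hfrac hnode.inf_eq)
        ((Ideal.span_singleton_le_iff_mem _).2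
          ⟨Ideal.mem_map_of_mem _ hπ.1, Ideal.mem_map_of_mem _ hπ.2⟩)
      sup_eq := by
        rw [← Ideal.map_sup, hnode.sup_eq]
        exact le_antisymm map_maximalIdeal_le' hmax
      hx := Ideal.mem_map_of_mem _ hnode.hx
      hy := Ideal.mem_map_of_mem _ hnode.hy
      unif₁ := hu₁
      unif₂ := hu₂
      hx₁ := hx₁
      hy₂ := hy₂
      nonunit₁ := hnu₁
      nonunit₂ := hnu₂ }

end Fermat.Agent.Ribet.H600
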